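import Fermat.Agent.TWLow.Tower
import Fermat.Agent.TWNew.Hom

set_option autoImplicit false
set_option linter.unusedSectionVars false

/-!
# `SpecLower`: lowering an auxiliary prime exactly dividing the level
-/

open CongruenceSubgroup Fermat.Agent.Top Fermat.Agent.TWMod Fermat.Agent.Twist
  Fermat.Agent.Ihara Matrix.SpecialLinearGroup
open scoped MatrixGroups

namespace Fermat.Agent.TWLow

/-- (A5), strong form: two Hecke-equivariant maps to level `N`, jointly non-vanishing on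
eigenvectors attached to newforms of level prime to `q`. -/
def SpecLowerStrong : Prop := ∀ (N q c : ℕ) (χ : DirichletCharacter ℂ (N * q))
  (χ₀ : DirichletCharacter ℂ N), TwHyp (N * q) c χ → q.Prime → ¬ q ∣ N →
  (∀ u : ℕ, Nat.Coprime u (N * q) → χ (u : ZMod (N * q)) = χ₀ (u : ZMod N)) →
  ∃ t₁ t₂ : H1 (kap χ) ℂ →ₗ[ℂ] H1 (kap χ₀) ℂ,
    (∀ (ℓ : ℕ) (hℓ : ℓ.Prime), ¬ ℓ ∣ N * q → ∀ x,
      t₁ (hk χ ℂ hℓ x) = hk χ₀ ℂ hℓ (t₁ x) ∧ t₂ (hk χ ℂ hℓ x) = hk χ₀ ℂ hℓ (t₂ x)) ∧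
    ∀ (S : Finset ℕ), (∀ l : ℕ, l.Prime → l ∣ N * q → l ∈ S) → ∀ (a : ℕ → ℂ), NonEis S a →
      ∀ x : H1 (kap χ) ℂ, x ≠ 0 → IsEig χ S a x →
      ∀ (M : ℕ) (_ : NeZero M) (g : CuspForm (Gamma0 M) 2), g.IsNewform →
        (∀ ℓ : ℕ, ℓ.Prime → ℓ ∉ S → ModularFormClass.qCoeff g ℓ = a ℓ) → ¬ q ∣ M →
      t₁ x ≠ 0 ∨ t₂ x ≠ 0

theorem cr_of_nat {K N : ℕ} (hK : 0 < K) (hNK : N ∣ K) {χ : DirichletCharacter ℂ K}
    {χ₀ : DirichletCharacter ℂ N}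
    (h : ∀ u : ℕ, Nat.Coprime u K → χ (u : ZMod K) = χ₀ (u : ZMod N)) : CR χ χ₀ := by
  intro x hx
  have hK0 : (K : ℤ) ≠ 0 := by exact_mod_cast hK.ne'
  have h1 := Int.emod_nonneg x hK0
  have h2 := Int.emod_add_mul_ediv x K
  obtain ⟨u, hu⟩ := Int.eq_ofNat_of_zero_le h1
  have hd : (K : ℤ) ∣ x - u := ⟨x / K, by rw [hu] at h2; linear_combination -h2⟩
  have hu' : Nat.Coprime u K := by
    rw [← Nat.isCoprime_iff_coprime]
    obtain ⟨k, hk⟩ := hd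
    have : ((u : ℕ) : ℤ) = x + (K : ℤ) * (-k) := by linear_combination -hk
    rw [this]
    exact hx.add_mul_left_left _
  have h3 := h u hu'
  rw [intCast_eq_of_dvd hd, intCast_eq_of_dvd ((Int.natCast_dvd_natCast.mpr hNK).trans hd),
    Int.cast_natCast, Int.cast_natCast]
  exact h3

theorem specLowerStrong : SpecLowerStrong := by
  intro N q c χ χ₀ hyp hq hqN hχ
  have hNq : 0 < N * q := hyp.pos
  have hN0 : 0 < N := Nat.pos_of_mul_pos_right hNq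
  have hcr : CR χ χ₀ := cr_of_nat hNq (dvd_mul_right N q) hχ
  have hK : N * q = q * N := mul_comm _ _
  -- `q ∤ c`
  have hqc : ¬ q ∣ c := by
    intro hd
    obtain ⟨u, hu1, hu2, hu3⟩ := hyp.ram q hq hd
    rw [Nat.mul_div_cancel _ hq.pos] at hu2
    apply hu3
    have : ((u : ℕ) : ZMod N) = 1 := by
      have := (ZMod.natCast_eq_natCast_iff u 1 N).mpr hu2
      simpa using this
    rw [hχ u hu1, this, map_one, one_pow]
  have hcN : c ∣ N := by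
    have h1 : Nat.Coprime c q := ((Nat.Prime.coprime_iff_not_dvd hq).mpr hqc).symm
    exact h1.dvd_of_dvd_mul_right hyp.dvd
  have hc0 : 0 < c := Nat.pos_of_dvd_of_pos hcN hN0
  have hqm : ¬ q ∣ N * c := fun hd => (hq.dvd_mul.mp hd).elim hqN hqc
  obtain ⟨al⟩ := exists_ALD (N := N * c) ((Nat.Prime.coprime_iff_not_dvd hq).mpr hqm)
  have : NeZero (N * c) := ⟨(Nat.mul_pos hN0 hc0).ne'⟩
  have : NeZero (q * (N * c)) := ⟨(Nat.mul_pos hq.pos (Nat.mul_pos hN0 hc0)).ne'⟩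
  let a₀ : ALD N q := ⟨al.x, al.y, c * al.z, al.t, by
    have h1 := al.h
    push_cast at h1
    linear_combination h1⟩
  have ha₀ : a₀.w = al.w := by
    change (!![q * al.x, al.y; q * (N : ℕ) * (c * al.z), q * al.t] : M2) =
      !![q * al.x, al.y; q * (N * c : ℕ) * al.z, q * al.t]
    have e1 : ((q : ℤ) * ((N : ℕ) : ℤ) * (c * al.z)) = q * ((N * c : ℕ) : ℤ) * al.z := by
      push_cast
      ring
    rw [e1]
  obtain ⟨tw, i1, i2, i3, i4⟩ := tower hq c N (N * q) χ χ₀ hqN hK hcr hyp hcN (N * c) rfl al a₀ ha₀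
  refine ⟨(Trop hK a₀ ℂ hcr hq hqN).comp (Wop hK a₀ ℂ hcr hq.ne_zero),
    Trop hK a₀ ℂ hcr hq hqN, ?_, ?_⟩
  · intro ℓ hℓ hℓN x
    rw [LinearMap.comp_apply, LinearMap.comp_apply, Wop_hk hK a₀ ℂ hcr hq.ne_zero hℓ hℓN,
      Trop_hk hK a₀ ℂ hcr hq hqN hℓ hℓN, Trop_hk hK a₀ ℂ hcr hq hqN hℓ hℓN]
    exact ⟨rfl, rfl⟩
  · intro S hS a hNE x hx hxa M _ g hg hga hqM
    by_contra hcon
    push Not at hcon
    obtain ⟨h1, h2⟩ := hcon
    apply hx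
    apply i1
    rw [map_zero]
    have hS' : ∀ r : ℕ, r.Prime → r ∣ q * (N * c) → r ∈ S := by
      intro r hr hd
      refine hS r hr ?_
      rcases hr.dvd_mul.mp hd with hd | hd
      · exact hd.mul_left N
      · rcases hr.dvd_mul.mp hd with hd | hd
        · exact hd.mul_right q
        · exact (hd.trans hcN).mul_right q
    refine TWNew.hom_eq_zero_of_traces hq hqm al hS' hNE (F := tw x) ?_ hg hga hqM ?_ ?_
    · intro ℓ hℓ hℓS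
      rw [← i2 ℓ hℓ (fun hd => hℓS (hS ℓ hℓ hd)), hxa ℓ hℓ hℓS, map_smul]
    · have h3 := i3 (Wop hK a₀ ℂ hcr hq.ne_zero x) h1
      rw [i4, wop_wop] at h3
      rw [add_comm]
      exact h3
    · rw [add_comm]
      exact i3 x h2

/-- **(A5)** -/
theorem specLower : SpecLower := by
  intro N q c χ χ₀ hyp hq hqN hχ S hS a hNE x hx hxa M hM g hg hga hqM
  obtain ⟨t₁, t₂, ht, h⟩ := specLowerStrong N q c χ χ₀ hyp hq hqN hχ
  have key : ∀ (ℓ : ℕ) (hℓ : ℓ.Prime), ℓ ∉ S → hk χ₀ ℂ hℓ (t₁ x) = a ℓ • t₁ x ∧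
      hk χ₀ ℂ hℓ (t₂ x) = a ℓ • t₂ x := by
    intro ℓ hℓ hℓS
    obtain ⟨h1, h2⟩ := ht ℓ hℓ (fun hd => hℓS (hS ℓ hℓ hd)) x
    rw [← h1, ← h2, hxa ℓ hℓ hℓS, map_smul, map_smul]
    exact ⟨rfl, rfl⟩
  rcases h S hS a hNE x hx hxa M hM g hg hga hqM with h1 | h1
  · exact ⟨t₁ x, h1, fun ℓ hℓ hℓS => (key ℓ hℓ hℓS).1⟩
  · exact ⟨t₂ x, h1, fun ℓ hℓ hℓS => (key ℓ hℓ hℓS).2⟩

end Fermat.Agent.TWLow
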