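import Fermat.Agent.Twist.Spec
import Fermat.Agent.Ihara.Forms

set_option autoImplicit false
set_option linter.unusedSectionVars false

/-!
# Weighted systems of integral representatives
-/

open CongruenceSubgroup Fermat.Agent.Top Fermat.Agent.TWMod Fermat.Agent.Twist
  Fermat.Agent.Ihara Matrix.SpecialLinearGroup
open scoped MatrixGroups

namespace Fermat.Agent.TWLow

section Congr

variable {Γ₁ Γ₂ G : Type*} [Group Γ₁] [Group Γ₂] [Group G] {ι₁ : Γ₁ →* G}
  {ι₂ : Γ₂ →* G} {I I' : Type*} [Fintype I] [Fintype I']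
variable {Λ : Type*} [CommRing Λ] {κ₁ : Γ₁ →* Λ} {κ₂ : Γ₂ →* Λ}
variable {A : Type*} [AddCommGroup A] [Module Λ A]

/-- Two equivalent weighted systems of representatives define the same operator on cohomology
(uniqueness is only needed for one of them). -/
theorem opBH_congr' {R : BR ι₁ ι₂ I} {R'' : BR ι₁ ι₂ I'} {w : I → Λ} (hw : IsWB R κ₁ κ₂ w)
    {w' : I' → Λ} (hw' : IsWB R'' κ₁ κ₂ w')
    (uniq : ∀ (g : Γ₁) (i j : I), ι₁ g * R.δ i = R.δ j → i = j)
    (he : ∀ i, ∃ (g : Γ₁) (j : I'), R.δ i = ι₁ g * R''.δ j ∧ w i * κ₁ g = w' j)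
    (hcard : Fintype.card I = Fintype.card I') (x : H1 κ₁ A) :
    opBH A hw x = opBH A hw' x := by
  refine opBH_congr hw hw' uniq ?_ he hcard x
  choose g e he hwe using he
  have hinj : Function.Injective e := by
    intro i j hij
    refine uniq (g j * (g i)⁻¹) i j ?_
    rw [he i, he j, hij, map_mul, map_inv]
    group
  have hbij : Function.Bijective e := (Fintype.bijective_iff_injective_and_card e).mpr ⟨hinj, hcard⟩
  intro g' a b hab
  obtain ⟨i, rfl⟩ := hbij.2 a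
  obtain ⟨j, rfl⟩ := hbij.2 b
  refine congrArg e (uniq (g j * g' * (g i)⁻¹) i j ?_)
  rw [he i, map_mul, map_mul, map_inv, mul_assoc, inv_mul_cancel_left, mul_assoc, hab, ← he j]

end Congr

section Int

variable {K M L : ℕ} {I J : Type*}

/-- The representatives are given by integral matrices. -/
def IntRep (R : BR (toGL K) (toGL M) I) (D : I → M2) : Prop :=
  ∀ i, ((R.δ i : GL (Fin 2) ℝ) : Matrix (Fin 2) (Fin 2) ℝ) = (D i).map (Int.cast : ℤ → ℝ)

theorem IntRep.comp {R : BR (toGL K) (toGL M) I} {R' : BR (toGL M) (toGL L) J} {D : I → M2}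
    {D' : J → M2} (h : IntRep R D) (h' : IntRep R' D') :
    IntRep (R.comp R') (fun x => D x.1 * D' x.2) := by
  intro x
  rw [BR.comp_δ, Units.val_mul, h, h', map_mul_cast]

theorem IntRep.eq_iff {R : BR (toGL K) (toGL M) I} {R' : BR (toGL K) (toGL M) J} {D : I → M2}
    {D' : J → M2} (h : IntRep R D) (h' : IntRep R' D') (g : Gamma0 K) (i : I) (j : J) :
    R.δ i = toGL K g * R'.δ j ↔ D i = mt g * D' j := by
  constructor
  · intro h1
    apply map_cast_injective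
    rw [map_mul_cast, ← h, ← h', h1, Units.val_mul, toGL_coe]
    rfl
  · intro h1
    apply Units.ext
    rw [Units.val_mul, h, h', h1, map_mul_cast, toGL_coe]
    rfl

theorem IntRep.mul_eq {R : BR (toGL K) (toGL M) I} {D : I → M2} (h : IntRep R D) (γ : Gamma0 M)
    (i : I) : D i * mt γ = mt (R.c γ i) * D (R.σ γ i) := by
  apply map_cast_injective
  rw [map_mul_cast, map_mul_cast, ← h, ← h]
  have h1 := congrArg (fun g : GL (Fin 2) ℝ => (g : Matrix (Fin 2) (Fin 2) ℝ)) (R.mul_eq γ i)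
  simp only [Units.val_mul, toGL_coe] at h1
  exact h1

theorem intRep_hreps (K : ℕ) {ℓ : ℕ} (hℓ : ℓ.Prime) :
    IntRep (BR.ofReps (hreps K hℓ)) (tM K ℓ) := fun i => HR_apply hℓ.ne_zero i.1

theorem intRep_tw {N q : ℕ} [NeZero q] (hqN : q ∣ N) :
    IntRep (twBR hqN) (fun u : ZMod q => TM q (u.val : ℤ)) := fun _ => TR_apply q _

/-- the factor -/
noncomputable def sysC {D : I → M2} (h : RepSys K M D) (γ : Gamma0 M) (i : I) : Gamma0 K :=
  (h.ex γ i).choose

/-- the permutation -/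
noncomputable def sysS {D : I → M2} (h : RepSys K M D) (γ : Gamma0 M) (i : I) : I :=
  (h.ex γ i).choose_spec.choose

theorem sysC_spec {D : I → M2} (h : RepSys K M D) (γ : Gamma0 M) (i : I) :
    D i * mt γ = mt (sysC h γ i) * D (sysS h γ i) := (h.ex γ i).choose_spec.choose_spec

/-- The abstract system attached to a system of integral representatives. -/
noncomputable def sys {D : I → M2} (h : RepSys K M D) : BR (toGL K) (toGL M) I where
  δ i := glz (D i)
  σ := sysS h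
  c := sysC h
  inj := toGL_injective K
  mul_eq γ i := GL_of_int (glz_val (h.det _)) (toGL_coe _) (toGL_coe _) (glz_val (h.det _))
      (sysC_spec h γ i)
  σ_one i := by
    have h1 := sysC_spec h 1 i
    rw [mt_one, Matrix.mul_one] at h1
    exact h.uniq _ _ _ h1.symm
  σ_mul γ γ' i := by
    have h1 := sysC_spec h (γ * γ') i
    have h2 := sysC_spec h γ i
    have h3 := sysC_spec h γ' (sysS h γ i)
    rw [mt_mul, ← Matrix.mul_assoc, h2, Matrix.mul_assoc, h3] at h1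
    refine h.uniq ((sysC h γ' (sysS h γ i))⁻¹ * (sysC h γ i)⁻¹ * sysC h (γ * γ') i) _ _ ?_
    rw [mt_mul, Matrix.mul_assoc, ← h1, mt_mul, Matrix.mul_assoc,
      ← Matrix.mul_assoc (mt (sysC h γ i)⁻¹), mt_inv_mul, Matrix.one_mul, ← Matrix.mul_assoc,
      mt_inv_mul, Matrix.one_mul]

theorem sys_δ {D : I → M2} (h : RepSys K M D) (i : I) : (sys h).δ i = glz (D i) := rfl

theorem intRep_sys {D : I → M2} (h : RepSys K M D) : IntRep (sys h) D := fun i => by
  rw [sys_δ, glz_val (h.det i)]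

theorem sys_spec {D : I → M2} (h : RepSys K M D) (γ : Gamma0 M) (i : I) :
    D i * mt γ = mt ((sys h).c γ i) * D ((sys h).σ γ i) := (intRep_sys h).mul_eq γ i

theorem sys_unique {D : I → M2} (h : RepSys K M D) (γ : Gamma0 M) (i j : I) (g : Gamma0 K)
    (hg : D i * mt γ = mt g * D j) : (sys h).σ γ i = j ∧ (sys h).c γ i = g := by
  have h1 := sys_spec h γ i
  rw [hg] at h1
  have h2 : mt (((sys h).c γ i)⁻¹ * g) * D j = D ((sys h).σ γ i) := by
    rw [mt_mul, Matrix.mul_assoc, h1, ← Matrix.mul_assoc, mt_inv_mul, Matrix.one_mul]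
  have h3 := h.uniq _ _ _ h2
  refine ⟨h3.symm, ?_⟩
  rw [← h3] at h1
  exact mt_injective (mul_right_cancel_det (h.det j) h1.symm)

end Int

section Weights

variable {Λ : Type*} [CommRing Λ]

/-- Compatibility of characters. -/
def CR {K n : ℕ} (χ : DirichletCharacter Λ K) (θ : DirichletCharacter Λ n) : Prop :=
  ∀ x : ℤ, IsCoprime x (K : ℤ) → χ (x : ZMod K) = θ (x : ZMod n)

theorem isUnit_intCast {K : ℕ} {x : ℤ} (hx : IsCoprime x (K : ℤ)) : IsUnit (x : ZMod K) := by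
  obtain ⟨a, b, hab⟩ := hx
  refine IsUnit.of_mul_eq_one (a : ZMod K) ?_
  have := congrArg (Int.cast : ℤ → ZMod K) hab
  push_cast at this
  rw [CharP.cast_eq_zero, mul_zero, add_zero] at this
  rw [mul_comm]
  exact this

theorem CR.inv {K n : ℕ} {χ : DirichletCharacter Λ K} {θ : DirichletCharacter Λ n} (h : CR χ θ)
    (hn : n ∣ K) : CR χ⁻¹ θ⁻¹ := by
  intro x hx
  have h1 := char_mul_inv χ (isUnit_intCast hx)
  have h2 := char_mul_inv θ (isUnit_intCast (K := n)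
    (hx.of_isCoprime_of_dvd_right (Int.natCast_dvd_natCast.mpr hn)))
  rw [h x hx] at h1
  linear_combination (θ⁻¹ (x : ZMod n)) * h1 - (χ⁻¹ (x : ZMod K)) * h2

theorem CR.wt {K n : ℕ} {χ : DirichletCharacter Λ K} {θ : DirichletCharacter Λ n} (h : CR χ θ)
    (hn : n ∣ K) {X : M2} (h0 : IsCoprime (X 0 0) (K : ℤ)) (h1 : IsCoprime (X 1 1) (K : ℤ)) :
    wt χ X = wt θ X := by
  rw [TWMod.wt, TWMod.wt, h _ h0, h.inv hn _ h1]

theorem isCoprime_a {K : ℕ} (γ : Gamma0 K) : IsCoprime (mt γ 0 0) (K : ℤ) := (isDelta_of_mem γ).2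

/-- The character is inverse to the weight. -/
def KW {K n : ℕ} (κ : Gamma0 K →* Λ) (θ : DirichletCharacter Λ n) : Prop :=
  ∀ γ : Gamma0 K, wt θ (mt γ) * κ γ = 1

theorem kw_kap {K : ℕ} (χ : DirichletCharacter Λ K) : KW (kap χ) χ := fun γ => wt_mul_kap χ γ

theorem CR.kw {K n : ℕ} {χ : DirichletCharacter Λ K} {θ : DirichletCharacter Λ n} (h : CR χ θ)
    (hn : n ∣ K) : KW (kap χ) θ := fun γ => by
  rw [← h.wt hn (isCoprime_a γ) (isCoprime_d γ)]
  exact wt_mul_kap χ γ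

theorem dvd_mt {K n : ℕ} (hn : n ∣ K) (γ : Gamma0 K) : (n : ℤ) ∣ mt γ 1 0 :=
  (Int.natCast_dvd_natCast.mpr hn).trans (isDelta_of_mem γ).1

theorem KW.isWB {K M n : ℕ} {I : Type*} {R : BR (toGL K) (toGL M) I} {D : I → M2}
    (hR : IntRep R D) {θ : DirichletCharacter Λ n} (hK : n ∣ K) (hM : n ∣ M)
    (hD : ∀ i, (n : ℤ) ∣ D i 1 0) {κ₁ : Gamma0 K →* Λ} {κ₂ : Gamma0 M →* Λ} (h₁ : KW κ₁ θ)
    (h₂ : KW κ₂ θ) : IsWB R κ₁ κ₂ (fun i => wt θ (D i)) := by
  intro γ i
  have h := congrArg (wt θ) (hR.mul_eq γ i)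
  rw [wt_mul θ (hD _) (dvd_mt hM γ), wt_mul θ (dvd_mt hK _) (hD _)] at h
  have h2 := h₂ γ
  have h1 := h₁ (R.c γ i)
  linear_combination (κ₂ γ * κ₁ (R.c γ i)) * h - (wt θ (D i) * κ₁ (R.c γ i)) * h2 +
    (κ₂ γ * wt θ (D (R.σ γ i))) * h1

theorem KW.weight {K n : ℕ} {θ : DirichletCharacter Λ n} (hK : n ∣ K) {κ : Gamma0 K →* Λ}
    (h : KW κ θ) {X Y : M2} (g : Gamma0 K) (hY : (n : ℤ) ∣ Y 1 0) (hXY : X = mt g * Y) :
    wt θ X * κ g = wt θ Y := by
  rw [hXY, wt_mul θ (dvd_mt hK g) hY]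
  linear_combination (wt θ Y) * h g

theorem hw_eq {K n ℓ : ℕ} {χ : DirichletCharacter Λ K} {θ : DirichletCharacter Λ n} (h : CR χ θ)
    (hn : n ∣ K) (hℓ : ℓ.Prime) (hℓK : ¬ ℓ ∣ K) (i : HI K ℓ) : hw χ ℓ i = wt θ (tM K ℓ i) := by
  have hc : IsCoprime (ℓ : ℤ) (K : ℤ) :=
    Nat.isCoprime_iff_coprime.mpr ((Nat.Prime.coprime_iff_not_dvd hℓ).mpr hℓK)
  refine h.wt hn ?_ ?_
  · obtain ⟨i, hi⟩ := i
    cases i with
    | none => simpa [tM] using hc
    | some j => simpa [tM] using isCoprime_one_left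
  · obtain ⟨i, hi⟩ := i
    cases i with
    | none => simpa [tM] using isCoprime_one_left
    | some j => simpa [tM] using hc

end Weights

end Fermat.Agent.TWLow
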