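import Fermat.Agent.TWLow.TrTw

set_option autoImplicit false
set_option linter.unusedSectionVars false

/-!
# The tower of twists, with Atkin–Lehner operators and traces
-/

open CongruenceSubgroup Fermat.Agent.Top Fermat.Agent.TWMod Fermat.Agent.Twist
  Fermat.Agent.Ihara Matrix.SpecialLinearGroup
open scoped MatrixGroups

namespace Fermat.Agent.TWLow

section Base

variable {q m : ℕ}

theorem wop_wop (a : ALD m q) (hq : q ≠ 0) {A : Type*} [AddCommGroup A]
    (φ : Additive (Gamma0 (q * m)) →+ A) : wop a hq (wop a hq φ) = φ := by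
  have hq0 : (q : ℤ) ≠ 0 := by exact_mod_cast hq
  refine AddMonoidHom.ext fun x => ?_
  obtain ⟨γ, rfl⟩ := Additive.ofMul.surjective x
  obtain ⟨γ₀, hγ₀⟩ := a.w_sq
  have h1 : cj a hq (cj a hq γ) = γ₀ * γ * γ₀⁻¹ := by
    rw [eq_mul_inv_iff_mul_eq]
    apply mt_injective
    rw [mt_mul, mt_mul]
    have h2 : a.w * a.w * mt γ = mt (cj a hq (cj a hq γ)) * (a.w * a.w) := by
      rw [Matrix.mul_assoc, cj_spec, ← Matrix.mul_assoc, cj_spec, Matrix.mul_assoc]
    rw [hγ₀, Matrix.smul_mul, Matrix.mul_smul] at h2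
    exact (smul_right_injective _ hq0 h2).symm
  change φ (Additive.ofMul (cj a hq (cj a hq γ))) = φ (Additive.ofMul γ)
  rw [h1, ofMul_mul, ofMul_mul, map_add, map_add, ofMul_inv, map_neg]
  abel

variable {χ : DirichletCharacter ℂ (q * m)} {χ₀ : DirichletCharacter ℂ m} (h : CR χ χ₀)
  (h1 : ∀ γ, kap χ γ = 1) (hχ₀ : χ₀ = 1) (a al : ALD m q) (haa : a.w = al.w)

include hχ₀ in
theorem wt_trM_eq_one (hq : q.Prime) (hqm : ¬ q ∣ m) (i : Option (Fin q)) :
    wt χ₀ (a.trM i) = 1 := by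
  have key : ∀ X : M2, IsCoprime (X 0 0) (m : ℤ) → IsCoprime (X 1 1) (m : ℤ) → wt χ₀ X = 1 := by
    intro X h0 h1
    rw [TWMod.wt, hχ₀, inv_one, MulChar.one_apply (isUnit_intCast h0),
      MulChar.one_apply (isUnit_intCast h1), mul_one]
  cases i with
  | none => exact key _ (w_entries a).1 (w_entries a).2
  | some j =>
    refine key _ (by simpa using isCoprime_one_left) ?_
    have hc : IsCoprime (q : ℤ) (m : ℤ) :=
      Nat.isCoprime_iff_coprime.mpr ((Nat.Prime.coprime_iff_not_dvd hq).mpr hqm)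
    simpa using hc

include hχ₀ haa in
theorem homOfH_Wop (hq : q.Prime) (hqm : ¬ q ∣ m) (x : H1 (kap χ) ℂ) :
    homOfH h1 (Wop rfl a ℂ h hq.ne_zero x) = wop al hq.ne_zero (homOfH h1 x) := by
  obtain ⟨f, rfl⟩ := cls_surjective _ _ x
  rw [Wop, opBH_cls, homOfH_cls, homOfH_cls]
  refine AddMonoidHom.ext fun γ' => ?_
  obtain ⟨γ, rfl⟩ : ∃ γ, Additive.ofMul γ = γ' := ⟨γ'.toMul, rfl⟩
  change (opB ℂ (isWB_w rfl a h hq.ne_zero) f).1 γ = f.1 (cj al hq.ne_zero γ)
  rw [opB_apply]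
  have e1 := (sys_unique (repSys_w' rfl a hq.ne_zero) γ () () (cj al hq.ne_zero γ)
    (by rw [haa]; exact cj_spec al hq.ne_zero γ)).2
  have e2 := wt_trM_eq_one hχ₀ a hq hqm none
  rw [ALD.trM_none] at e2
  simp only [Finset.univ_unique, PUnit.default_eq_unit, Finset.sum_singleton]
  rw [e1, e2, one_smul]

include hχ₀ haa in
theorem hom_of_Trop_eq_zero (hq : q.Prime) (hqm : ¬ q ∣ m) (x : H1 (kap χ) ℂ)
    (hx : Trop rfl a ℂ h hq hqm x = 0) :
    hop (q * m) ⟨q, hq⟩ (homOfH h1 x) + wop al hq.ne_zero (homOfH h1 x) = 0 := by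
  classical
  obtain ⟨f, rfl⟩ := cls_surjective _ _ x
  rw [Trop, opBH_cls, cls_eq_zero_iff] at hx
  obtain ⟨b, hb⟩ := hx
  rw [homOfH_cls]
  refine AddMonoidHom.ext fun γ' => ?_
  obtain ⟨γ, rfl⟩ : ∃ γ, Additive.ofMul γ = γ' := ⟨γ'.toMul, rfl⟩
  set γm : Gamma0 m := incl (dvd_mul_left m q) γ with hγm
  have hmt : mt γm = mt γ := rfl
  have h2 := congrArg (fun z : Z1 (kap χ₀) ℂ => z.1 γm) hb
  simp only [dB_apply, kap_eq_one_of_one hχ₀, one_smul, sub_self, opB_apply] at h2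
  set R := sys (repSys_tr' (K := q * m) rfl a hq hqm) with hR
  have h3 : ∑ i : Option (Fin q), f.1 (R.c γm i) = 0 := by
    rw [h2]
    refine Finset.sum_congr rfl fun i _ => ?_
    rw [wt_trM_eq_one hχ₀ a hq hqm i, one_smul]
  have h4 : R.c γm none = cj al hq.ne_zero γ := by
    refine (sys_unique (repSys_tr' rfl a hq hqm) γm none none _ ?_).2
    rw [hmt, ALD.trM_none, haa]
    exact cj_spec al hq.ne_zero γ
  have h5 : ∀ i : HI (q * m) q, (hreps (q * m) hq).c γ i = R.c γm i.1 := by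
    have hsome : ∀ i : HI (q * m) q, a.trM i.1 = HM q i.1 := by
      rintro ⟨i, hi⟩
      cases i with
      | none => exact absurd rfl (hi (dvd_mul_right q m))
      | some j => rfl
    intro i
    refine ((sys_unique (repSys_tr' rfl a hq hqm) γm i.1 ((hreps (q * m) hq).σ γ i).1 _ ?_).2).symm
    rw [hmt, hsome, hsome]
    exact hreps_matrix ⟨q, hq⟩ γ i
  have h6 : ∑ i : HI (q * m) q, f.1 ((hreps (q * m) hq).c γ i) =
      ∑ j : Fin q, f.1 (R.c γm (some j)) := by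
    rw [Finset.sum_congr rfl fun i _ => congrArg f.1 (h5 i),
      sum_HI (q * m) q (fun i => f.1 (R.c γm i)), if_pos (dvd_mul_right q m), add_zero]
  rw [Fintype.sum_option, h4] at h3
  change ∑ i : HI (q * m) q, f.1 ((hreps (q * m) hq).c γ i) + f.1 (cj al hq.ne_zero γ) = 0
  rw [h6, add_comm]
  exact h3

end Base

section Chars

variable {q N K : ℕ}

/-- Lifting of units. -/
theorem exists_lift (hq : q.Prime) (hqN : ¬ q ∣ N) (hK : K = q * N) {x : ℤ}
    (hx : IsCoprime x (N : ℤ)) : ∃ x' : ℤ, IsCoprime x' (K : ℤ) ∧ (N : ℤ) ∣ x' - x := by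
  obtain ⟨u, v, huv⟩ : IsCoprime (q : ℤ) (N : ℤ) :=
    Nat.isCoprime_iff_coprime.mpr ((Nat.Prime.coprime_iff_not_dvd hq).mpr hqN)
  refine ⟨x + (1 - x) * (v * N), ?_, ⟨(1 - x) * v, by ring⟩⟩
  rw [hK]
  push_cast
  refine IsCoprime.mul_right ?_ ?_
  · have : x + (1 - x) * (v * N) = 1 + (q : ℤ) * ((x - 1) * u) := by
      linear_combination (1 - x) * huv
    rw [this]
    exact isCoprime_one_left.add_mul_left_left _
  · have : x + (1 - x) * (v * N) = x + (N : ℤ) * ((1 - x) * v) := by ring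
    rw [this]
    exact hx.add_mul_left_left _

theorem intCast_eq_of_dvd {n : ℕ} {x y : ℤ} (hn : (n : ℤ) ∣ x - y) : (x : ZMod n) = (y : ZMod n) := by
  rw [← sub_eq_zero, ← Int.cast_sub, ZMod.intCast_zmod_eq_zero_iff_dvd]
  exact hn

theorem eq_one_of_cr (hq : q.Prime) (hqN : ¬ q ∣ N) (hK : K = q * N) {χ : DirichletCharacter ℂ K}
    {χ₀ : DirichletCharacter ℂ N} (h : CR χ χ₀) (hχ : χ = 1) : χ₀ = 1 := by
  refine MulChar.ext fun u => ?_
  obtain ⟨x, hx⟩ := ZMod.intCast_surjective (u : ZMod N)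
  have hxc : IsCoprime x (N : ℤ) := by
    have h1 : IsUnit (x : ZMod N) := by rw [hx]; exact u.isUnit
    exact ((ZMod.coe_int_isUnit_iff_isCoprime x N).mp h1).symm
  obtain ⟨x', hx', hd⟩ := exists_lift hq hqN hK hxc
  rw [MulChar.one_apply u.isUnit, ← hx, ← intCast_eq_of_dvd hd, ← h x' hx', hχ,
    MulChar.one_apply (isUnit_intCast hx')]

/-- The lower character of the step. -/
theorem exists_lower {r c' : ℕ} (hq : q.Prime) (hqN : ¬ q ∣ N) (hK : K = q * N)
    {χ : DirichletCharacter ℂ K} {χ₀ : DirichletCharacter ℂ N} (h : CR χ χ₀) (hrN : r ∣ N)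
    (hc'N : c' ∣ N) (S : TwStep K r c' χ) : ∃ χ₀' : DirichletCharacter ℂ (N * r),
      CR S.χ' χ₀' ∧ TwRel N r χ₀ χ₀' S.ψ := by
  obtain ⟨hd, θ, hθ⟩ := S.hyp.fac
  have hd' : c' ∣ N * r := hc'N.mul_right r
  have hcr : ∀ x : ℤ, IsCoprime x ((K * r : ℕ) : ℤ) → S.χ' (x : ZMod (K * r)) = θ (x : ZMod c') := by
    intro x hx
    rw [hθ, DirichletCharacter.changeLevel_eq_cast_of_dvd' _ _ hx]
  have hcr₀ : ∀ x : ℤ, IsCoprime x ((N * r : ℕ) : ℤ) →
      (DirichletCharacter.changeLevel hd' θ) (x : ZMod (N * r)) = θ (x : ZMod c') := by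
    intro x hx
    rw [DirichletCharacter.changeLevel_eq_cast_of_dvd' _ _ hx]
  refine ⟨DirichletCharacter.changeLevel hd' θ, ?_, ?_⟩
  · intro x hx
    rw [hcr x hx, hcr₀ x (hx.of_isCoprime_of_dvd_right ?_)]
    rw [hK]
    push_cast
    exact ⟨q, by ring⟩
  · intro x hx
    obtain ⟨x', hx', hdx⟩ := exists_lift hq hqN hK hx
    have hrK : r ∣ K := hrN.trans ⟨q, by rw [hK, mul_comm]⟩
    rw [hcr₀ x (isCoprime_mul_r hrN hx).2, ← intCast_eq_of_dvd hdx, ← h x' hx', S.rel x' hx',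
      hcr x' (isCoprime_mul_r hrK hx').2,
      intCast_eq_of_dvd ((Int.natCast_dvd_natCast.mpr hc'N).trans hdx),
      intCast_eq_of_dvd ((Int.natCast_dvd_natCast.mpr hrN).trans hdx)]

end Chars

/-- **The tower of twists**, compatible with the Atkin–Lehner operator and the trace at `q`. -/
theorem tower {q : ℕ} (hq : q.Prime) : ∀ (c N K : ℕ) (χ : DirichletCharacter ℂ K)
    (χ₀ : DirichletCharacter ℂ N) (hqN : ¬ q ∣ N) (hK : K = q * N) (h : CR χ χ₀),
    TwHyp K c χ → c ∣ N → ∀ (m : ℕ), m = N * c → ∀ (al : ALD m q) (a : ALD N q), a.w = al.w →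
    ∃ tw : H1 (kap χ) ℂ →ₗ[ℂ] (Additive (Gamma0 (q * m)) →+ ℂ), Function.Injective tw ∧
      (∀ (ℓ : ℕ) (hℓ : ℓ.Prime), ¬ ℓ ∣ K → ∀ x,
        tw (hk χ ℂ hℓ x) = hop (q * m) ⟨ℓ, hℓ⟩ (tw x)) ∧
      (∀ x, Trop hK a ℂ h hq hqN x = 0 →
        hop (q * m) ⟨q, hq⟩ (tw x) + wop al hq.ne_zero (tw x) = 0) ∧
      ∀ x, tw (Wop hK a ℂ h hq.ne_zero x) = wop al hq.ne_zero (tw x) := by
  intro c
  induction c using Nat.strong_induction_on with
  | _ c ih =>
    intro N K χ χ₀ hqN hK h hyp hcN m hm al a haa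
    rcases Nat.lt_or_ge 1 c with hc | hc
    · obtain ⟨r, hr, c', hc'⟩ := Nat.exists_prime_and_dvd hc.ne'
      subst hc'
      have hrN : r ∣ N := (dvd_mul_right r c').trans hcN
      have hc'N : c' ∣ N := (dvd_mul_left c' r).trans hcN
      obtain ⟨S⟩ := exists_step hr hyp
      have : Fact r.Prime := ⟨hr⟩
      have hK0 : 0 < K := hyp.pos
      have : NeZero K := ⟨hK0.ne'⟩
      have hrK : r ∣ K := ⟨S.n, S.hn⟩
      have hN0 : 0 < N := by
        rcases Nat.eq_zero_or_pos N with rfl | h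
        · omega
        · exact h
      have hc'0 : 0 < c' := Nat.pos_of_dvd_of_pos hc'N hN0
      obtain ⟨χ₀', hcr', ht₀⟩ := exists_lower hq hqN hK h hrN hc'N S
      have hqN' : ¬ q ∣ N * r := by
        intro hd
        rcases hq.dvd_mul.mp hd with h1 | h1
        · exact hqN h1
        · rw [(Nat.prime_dvd_prime_iff_eq hq hr).mp h1] at hqN
          exact hqN hrN
      -- the Atkin–Lehner data at the level `N r`
      have hmZ : (m : ℤ) = N * (r * c') := by
        have := congrArg (Nat.cast : ℕ → ℤ) hm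
        push_cast at this
        exact this
      let a' : ALD (N * r) q := ⟨al.x, al.y, c' * al.z, al.t, by
        have h1 := al.h
        push_cast
        linear_combination h1 + (al.y * al.z) * hmZ⟩
      have ha' : a'.w = al.w := by
        change (!![q * al.x, al.y; q * (N * r : ℕ) * (c' * al.z), q * al.t] : M2) =
          !![q * al.x, al.y; q * (m : ℕ) * al.z, q * al.t]
        have e1 : ((q : ℤ) * ((N * r : ℕ) : ℤ) * (c' * al.z)) = q * (m : ℤ) * al.z := by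
          push_cast
          linear_combination (-(q : ℤ) * al.z) * hmZ
        rw [e1]
      obtain ⟨tw', i1, i2, i3, i4⟩ := ih c' (by nlinarith [hr.two_le]) (N * r) (K * r) S.χ' χ₀'
        hqN' (level_mul hK) hcr' S.hyp (hc'N.mul_right r) m (by rw [hm]; ring) al a' ha'
      have haa' : a.w = a'.w := haa.trans ha'.symm
      refine ⟨tw'.comp (tw1 ℂ hrK S.rel), i1.comp (tw1_injective hrK S.hn S.cop S.rel S.ne S.hd
        S.hdn S.hχ), ?_, ?_, ?_⟩
      · intro ℓ hℓ hℓK x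
        rw [LinearMap.comp_apply, tw1_hk ℂ hrK S.rel hℓ hℓK, LinearMap.comp_apply]
        refine i2 ℓ hℓ (fun hd => hℓK ?_) _
        rcases hℓ.dvd_mul.mp hd with h1 | h1
        · exact h1
        · exact h1.trans hrK
      · intro x hx
        rw [LinearMap.comp_apply]
        refine i3 _ ?_
        rw [tw1_Trop ℂ hK hrN h hcr' S.rel ht₀ a a' haa' hq hqN hqN' hrK, hx, map_zero]
      · intro x
        rw [LinearMap.comp_apply, LinearMap.comp_apply, ← i4,
          tw1_Wop ℂ hK hrN h hcr' S.rel ht₀ a a' haa' hq.ne_zero hrK]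
    · have hc0 : 0 < c := Nat.pos_of_dvd_of_pos hyp.dvd hyp.pos
      have hc1 : c = 1 := by omega
      subst hc1
      rw [mul_one] at hm
      subst hm
      subst hK
      have : NeZero (q * m) := ⟨hyp.pos.ne'⟩
      have hχ : χ = 1 := (DirichletCharacter.factorsThrough_one_iff χ).mp hyp.fac
      have hχ₀ := eq_one_of_cr hq hqN rfl h hχ
      refine ⟨homOfH (kap_eq_one_of_one hχ), homOfH_injective _, fun ℓ hℓ hℓN x =>
        homOfH_hk _ hℓ (hw_eq_one_of_one hχ hℓ hℓN) x, fun x hx => ?_, fun x => ?_⟩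
      · exact hom_of_Trop_eq_zero h _ hχ₀ a al haa hq hqN x hx
      · exact homOfH_Wop h _ hχ₀ a al haa hq hqN x

end Fermat.Agent.TWLow
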