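import Fermat.Agent.TWLow.Trace

set_option autoImplicit false
set_option linter.unusedSectionVars false

/-!
# The twist commutes with the Atkin–Lehner operator and the trace
-/

open CongruenceSubgroup Fermat.Agent.Top Fermat.Agent.TWMod Fermat.Agent.Twist
  Fermat.Agent.Ihara Matrix.SpecialLinearGroup
open scoped MatrixGroups

namespace Fermat.Agent.TWLow

section Mats

variable {N q r K : ℕ}

theorem exists_w_swap (hK : K = q * N) (hrN : r ∣ N) (a : ALD (N * r) q) (u v : ℤ)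
    (huv : (r : ℤ) ∣ v - u * (q * a.x ^ 2)) : ∃ g : Gamma0 K,
      TM r v * a.w = mt g * (a.w * TM r u) ∧ (N : ℤ) ∣ mt g 0 0 - 1 ∧ (N : ℤ) ∣ mt g 1 1 - 1 := by
  obtain ⟨e, he⟩ := huv
  obtain ⟨n, hn⟩ := hrN
  have hNr : (N : ℤ) = r * n := by rw [hn]; push_cast; ring
  have h := a.h
  push_cast at h
  obtain ⟨X, hX⟩ : ∃ X : M2, X = !![1 + u * q * a.x * (N * a.z) + v * u * q * (N * a.z) ^ 2,
      e - v * u * q * a.x * (n * a.z); u * q * r * (N * a.z) ^ 2, 1 - u * q * a.x * (N * a.z)] :=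
    ⟨_, rfl⟩
  have hdet : X.det = 1 := by
    rw [hX, Matrix.det_fin_two_of]
    linear_combination (u * q * (N * a.z) ^ 2) * he +
      (-(u * q * (N * a.z) ^ 2) * v * u * q * a.x * a.z) * hNr
  have hδ : IsDelta K X := isDelta_of_det (by
    rw [hX]
    simp only [Matrix.of_apply, Matrix.cons_val', Matrix.cons_val_zero, Matrix.cons_val_one,
      Matrix.cons_val_fin_one]
    exact ⟨u * r * N * a.z ^ 2, by rw [hK]; push_cast; ring⟩)
    (by rw [hdet]; exact isCoprime_one_left)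
  obtain ⟨g, hg⟩ := exists_mt hδ hdet
  refine ⟨g, ?_, ?_, ?_⟩
  · rw [← hg, hX]
    ext i j
    fin_cases i <;> fin_cases j <;>
      simp [TM, ALD.w, Matrix.mul_apply, Fin.sum_univ_two]
    · linear_combination ((q : ℤ) * N * r * a.z) * he -
        (v * u * (q : ℤ) ^ 2 * a.x * N * r * a.z ^ 2) * hNr
    · linear_combination ((q : ℤ) * N * a.z * u + q * a.t) * he -
        (v * u * (q : ℤ) * a.x * a.z * (q * N * a.z * u + q * a.t)) * hNr +
        (u * (q : ℤ) * a.x + v * u * q * N * a.z) * h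
    · ring
    · linear_combination (u * (q : ℤ) * N * a.z * r) * h
  · rw [← hg, hX]
    simp only [Matrix.of_apply, Matrix.cons_val', Matrix.cons_val_zero,
      Matrix.cons_val_fin_one]
    exact ⟨u * q * a.x * a.z + v * u * q * N * a.z ^ 2, by ring⟩
  · rw [← hg, hX]
    simp only [Matrix.of_apply, Matrix.cons_val', Matrix.cons_val_one,
      Matrix.cons_val_fin_one]
    exact ⟨-(u * q * a.x * a.z), by ring⟩

theorem exists_swap_some' [hr : Fact r.Prime] (hq : q.Prime) (j : Fin q) (v : ZMod r) :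
    ∃ (t : ℤ) (j' : Fin q), TM r (v.val : ℤ) * HM q (some j) =
      !![1, t; 0, 1] * (HM q (some j') * TM r (((v * (q : ZMod r)).val : ℕ) : ℤ)) := by
  obtain ⟨s, hs⟩ : (r : ℤ) ∣ (v.val : ℤ) * q - (((v * (q : ZMod r)).val : ℕ) : ℤ) := by
    rw [← ZMod.intCast_zmod_eq_zero_iff_dvd]
    push_cast
    rw [ZMod.natCast_zmod_val, ZMod.natCast_zmod_val, sub_self]
  have hq0 : (0 : ℤ) < q := by exact_mod_cast hq.pos
  have h1 := Int.emod_nonneg (s + ((j : ℕ) : ℤ)) hq0.ne'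
  have h2 := Int.emod_lt_of_pos (s + ((j : ℕ) : ℤ)) hq0
  have h3 := Int.emod_add_mul_ediv (s + ((j : ℕ) : ℤ)) q
  refine ⟨(s + ((j : ℕ) : ℤ)) / q, ⟨((s + ((j : ℕ) : ℤ)) % q).toNat, by omega⟩, ?_⟩
  rw [HM_mul_TM_some, TM_mul_HM_some, shift_mul]
  have h4 : (((⟨((s + ((j : ℕ) : ℤ)) % q).toNat, by omega⟩ : Fin q) : ℕ) : ℤ) =
      (s + ((j : ℕ) : ℤ)) % q := Int.toNat_of_nonneg h1
  rw [h4]
  have h5 : (r : ℤ) * ((j : ℕ) : ℤ) + (v.val : ℤ) * q = (((v * (q : ZMod r)).val : ℕ) : ℤ) +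
      (s + ((j : ℕ) : ℤ)) % q * r + (s + ((j : ℕ) : ℤ)) / q * (q * r) := by
    linear_combination hs - (r : ℤ) * h3
  rw [h5]

theorem TM_uniq [hr : Fact r.Prime] (g : Gamma0 K) (u v : ZMod r)
    (h : mt g * TM r (u.val : ℤ) = TM r (v.val : ℤ)) : u = v := by
  have hr0 : (0 : ℤ) < r := by exact_mod_cast hr.out.pos
  obtain ⟨-, -, t, ht⟩ := upper_unique (g : SL(2, ℤ)) hr0 hr0 h
  have h1 := congrArg (Int.cast : ℤ → ZMod r) ht
  push_cast at h1
  rw [ZMod.natCast_zmod_val, ZMod.natCast_zmod_val, CharP.cast_eq_zero (ZMod r) r, mul_zero,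
    add_zero] at h1
  exact h1.symm

theorem TM_w_uniq [hr : Fact r.Prime] {M : ℕ} (a : ALD M q) (hq : q ≠ 0) (g : Gamma0 K)
    (u v : ZMod r) (h : mt g * (TM r (u.val : ℤ) * a.w) = TM r (v.val : ℤ) * a.w) : u = v := by
  have hdw : a.w.det ≠ 0 := by rw [a.det_w]; exact_mod_cast hq
  exact TM_uniq g u v (mul_right_cancel_det hdw (by rw [Matrix.mul_assoc]; exact h))

theorem TM_tr_uniq [hr : Fact r.Prime] {M : ℕ} (hK : K = q * N) (a : ALD M q) (hq : q.Prime)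
    (hne : q ≠ r) (g : Gamma0 K) (u v : ZMod r) (i j : Option (Fin q))
    (h : mt g * (TM r (u.val : ℤ) * a.trM i) = TM r (v.val : ℤ) * a.trM j) : u = v ∧ i = j := by
  have hqp : Prime (q : ℤ) := Nat.prime_iff_prime_int.mp hq
  have hqr : ¬ (q : ℤ) ∣ r := by
    intro hd
    exact hne ((Nat.prime_dvd_prime_iff_eq hq hr.out).mp (by exact_mod_cast hd))
  have hg0 : ¬ (q : ℤ) ∣ mt g 0 0 := by
    intro hd
    have h1 : IsCoprime (mt g 0 0) (q : ℤ) := (isCoprime_a g).of_isCoprime_of_dvd_right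
      (by rw [hK]; push_cast; exact dvd_mul_right _ _)
    exact hqp.not_isUnit (h1.isUnit_of_dvd' hd dvd_rfl)
  cases i with
  | none =>
    cases j with
    | none => exact ⟨TM_w_uniq a hq.ne_zero g u v h, rfl⟩
    | some j =>
      exfalso
      have h00 := congrFun (congrFun h 0) 0
      simp [TM, ALD.w, Matrix.mul_apply, Fin.sum_univ_two] at h00
      apply hqr
      rw [← h00]
      exact ⟨mt g 0 0 * (r * a.x + (u.val : ℤ) * (M * a.z)) + mt g 0 1 * (r * (M * a.z)), by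
        simp; ring⟩
  | some i =>
    cases j with
    | none =>
      exfalso
      have h00 := congrFun (congrFun h 0) 0
      simp [TM, ALD.w, Matrix.mul_apply, Fin.sum_univ_two] at h00
      have h1 : (q : ℤ) ∣ mt g 0 0 * r := by
        rw [h00]
        exact ⟨r * a.x + (v.val : ℤ) * (M * a.z), by simp; ring⟩
      exact (hqp.dvd_or_dvd h1).elim hg0 hqr
    | some j =>
      obtain ⟨h1, h2⟩ := unique_TH hq hne (g : SL(2, ℤ)) (some i) (some j) u v h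
      exact ⟨h2, h1⟩

end Mats

section Weights

variable {Λ : Type*} [CommRing Λ] {N r : ℕ} {χ : DirichletCharacter Λ N}
  {χ' : DirichletCharacter Λ (N * r)} {ψ : DirichletCharacter Λ r}

theorem isCoprime_mul_r (hrN : r ∣ N) {x : ℤ} (hx : IsCoprime x (N : ℤ)) :
    IsCoprime x (r : ℤ) ∧ IsCoprime x ((N * r : ℕ) : ℤ) := by
  have h1 : IsCoprime x (r : ℤ) :=
    hx.of_isCoprime_of_dvd_right (Int.natCast_dvd_natCast.mpr hrN)
  refine ⟨h1, ?_⟩
  push_cast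
  exact hx.mul_right h1

theorem twRel_inv (h : TwRel N r χ χ' ψ) (hrN : r ∣ N) : TwRel N r χ⁻¹ χ'⁻¹ ψ⁻¹ := by
  intro x hx
  obtain ⟨hx1, hx2⟩ := isCoprime_mul_r hrN hx
  have h1 := char_mul_inv χ (isUnit_intCast hx)
  have h2 := char_mul_inv χ' (isUnit_intCast hx2)
  have h3 := char_mul_inv ψ (isUnit_intCast hx1)
  rw [h x hx] at h1
  linear_combination (χ'⁻¹ (x : ZMod (N * r)) * ψ⁻¹ (x : ZMod r)) * h1 -
    (χ⁻¹ (x : ZMod N) * (ψ (x : ZMod r) * ψ⁻¹ (x : ZMod r))) * h2 - (χ⁻¹ (x : ZMod N)) * h3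

theorem twRel_wt (h : TwRel N r χ χ' ψ) (hrN : r ∣ N) {X : M2} (h0 : IsCoprime (X 0 0) (N : ℤ))
    (h1 : IsCoprime (X 1 1) (N : ℤ)) :
    wt χ X = wt χ' X * (ψ ((X 0 0 : ℤ) : ZMod r) * ψ⁻¹ ((X 1 1 : ℤ) : ZMod r)) := by
  rw [TWMod.wt, TWMod.wt, h _ h0, twRel_inv h hrN _ h1]
  ring

theorem wt_eq_one {X : M2} (h0 : (N : ℤ) ∣ X 0 0 - 1) (h1 : (N : ℤ) ∣ X 1 1 - 1) :
    wt χ X = 1 := by
  rw [TWMod.wt, cast_N_of_dvd h0, cast_N_of_dvd h1, map_one, map_one, mul_one]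

end Weights

section Comm

variable {N q r K : ℕ} [hr : Fact r.Prime] {Λ : Type*} [CommRing Λ] (A : Type*) [AddCommGroup A]
  [Module Λ A] (hK : K = q * N) (hrN : r ∣ N) {χ : DirichletCharacter Λ K}
  {χ₀ : DirichletCharacter Λ N} {χ' : DirichletCharacter Λ (K * r)}
  {χ₀' : DirichletCharacter Λ (N * r)} {ψ : DirichletCharacter Λ r} (h : CR χ χ₀)
  (h' : CR χ' χ₀') (ht : TwRel K r χ χ' ψ) (ht₀ : TwRel N r χ₀ χ₀' ψ) (a : ALD N q)
  (a' : ALD (N * r) q) (haa : a.w = a'.w)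

include hK in
theorem level_mul : K * r = q * (N * r) := by rw [hK, mul_assoc]

include hK h in
theorem kap_eq_one_of {g : Gamma0 K} (h0 : (N : ℤ) ∣ mt g 0 0 - 1) (h1 : (N : ℤ) ∣ mt g 1 1 - 1) :
    kap χ g = 1 := by
  have := h.kw (dvd_level hK) g
  rwa [wt_eq_one h0 h1, one_mul] at this

include hr in
theorem qx_unit (a' : ALD (N * r) q) : ((q : ZMod r) * (a'.x : ZMod r) ^ 2) ≠ 0 ∧
    (((q : ℤ) * a'.x : ℤ) : ZMod r) * (a'.t : ZMod r) = 1 := by
  have h1 := congrArg (Int.cast : ℤ → ZMod r) a'.h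
  push_cast at h1
  rw [CharP.cast_eq_zero (ZMod r) r, mul_zero, zero_mul, zero_mul, sub_zero] at h1
  refine ⟨?_, by push_cast; exact h1⟩
  intro h0
  have h2 : (q : ZMod r) * (a'.x : ZMod r) = 0 := by
    rcases mul_eq_zero.mp h0 with h | h
    · rw [h, zero_mul]
    · rw [pow_eq_zero_iff two_ne_zero] at h
      rw [h, mul_zero]
  rw [h2, zero_mul] at h1
  exact zero_ne_one h1

theorem w_entries {M : ℕ} (a : ALD M q) : IsCoprime (a.w 0 0) (M : ℤ) ∧
    IsCoprime (a.w 1 1) (M : ℤ) := by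
  constructor
  · exact ⟨a.t, -(a.y * a.z), by simp [ALD.w]; linear_combination a.h⟩
  · exact ⟨a.x, -(a.y * a.z), by simp [ALD.w]; linear_combination a.h⟩

include ht₀ haa in
theorem wt_w_eq (hrN : r ∣ N) (u : ZMod r) :
    ψ (u * ((q : ZMod r) * (a'.x : ZMod r) ^ 2)) * wt χ₀' a'.w = wt χ₀ a.w * ψ u := by
  rw [twRel_wt ht₀ hrN (w_entries a).1 (w_entries a).2, haa, map_mul]
  have h1 : ψ ((q : ZMod r) * (a'.x : ZMod r) ^ 2) =
      ψ ((a'.w 0 0 : ℤ) : ZMod r) * ψ⁻¹ ((a'.w 1 1 : ℤ) : ZMod r) := by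
    have e0 : ((a'.w 0 0 : ℤ) : ZMod r) = (q : ZMod r) * (a'.x : ZMod r) := by simp [ALD.w]
    have e1 : ((a'.w 1 1 : ℤ) : ZMod r) = (q : ZMod r) * (a'.t : ZMod r) := by simp [ALD.w]
    have h2 := (qx_unit (N := N) a').2
    push_cast at h2
    have h3 : ((q : ZMod r) * (a'.t : ZMod r)) * (a'.x : ZMod r) = 1 := by
      linear_combination h2
    have h4 := char_mul_inv ψ (IsUnit.of_mul_eq_one _ h3)
    have h5 := congrArg ψ h3
    rw [map_mul, map_one] at h5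
    have h6 : (q : ZMod r) * (a'.x : ZMod r) ^ 2 = ((q : ZMod r) * (a'.x : ZMod r)) *
      (a'.x : ZMod r) := by ring
    rw [e0, e1, h6, map_mul (f := ψ) ((q : ZMod r) * (a'.x : ZMod r))]
    linear_combination (-ψ ((q : ZMod r) * (a'.x : ZMod r)) * ψ (a'.x : ZMod r)) * h4 +
      (ψ ((q : ZMod r) * (a'.x : ZMod r)) * ψ⁻¹ ((q : ZMod r) * (a'.t : ZMod r))) * h5
  rw [h1]
  ring

include hr in
theorem exists_u (a' : ALD (N * r) q) (v : ZMod r) : ∃ u : ZMod r,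
    v = u * ((q : ZMod r) * (a'.x : ZMod r) ^ 2) ∧
      (r : ℤ) ∣ (v.val : ℤ) - (u.val : ℤ) * (q * a'.x ^ 2) := by
  have h1 := (qx_unit (N := N) a').1
  refine ⟨v * ((q : ZMod r) * (a'.x : ZMod r) ^ 2)⁻¹, by rw [inv_mul_cancel_right₀ h1], ?_⟩
  rw [← ZMod.intCast_zmod_eq_zero_iff_dvd]
  push_cast
  rw [ZMod.natCast_zmod_val, ZMod.natCast_zmod_val, inv_mul_cancel_right₀ h1, sub_self]

include hrN ht₀ haa in
/-- **The twist commutes with the Atkin–Lehner operator.** -/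
theorem tw1_Wop (hq : q ≠ 0) (hrK : r ∣ K) (x : H1 (kap χ) A) :
    Wop (level_mul hK) a' A h' hq (tw1 A hrK ht x) = tw1 A hrK ht (Wop hK a A h hq x) := by
  classical
  have e1 : tw1 A hrK ht (Wop hK a A h hq x) =
      opBH A ((isWB_w hK a h hq).comp (isWB_tw hrK ht)) x := by
    rw [opBH_comp (isWB_w hK a h hq) (isWB_tw hrK ht)]
    rfl
  have e2 : Wop (level_mul hK) a' A h' hq (tw1 A hrK ht x) =
      opBH A ((isWB_tw hrK ht).comp (isWB_w (level_mul hK) a' h' hq)) x := by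
    rw [opBH_comp (isWB_tw hrK ht) (isWB_w (level_mul hK) a' h' hq)]
    rfl
  have r1 := (intRep_sys (repSys_w' hK a hq)).comp (intRep_tw hrK)
  have r2 := (intRep_tw hrK).comp (intRep_sys (repSys_w' (level_mul hK) a' hq))
  rw [e1, e2]
  refine opBH_congr' _ _ ?_ ?_ ?_ x
  · rintro g ⟨u, _⟩ ⟨v, _⟩ hij
    rw [TM_w_uniq a' hq g u v (((r2.eq_iff r2 g _ _).mp hij.symm)).symm]
  · rintro ⟨v, _⟩
    obtain ⟨u, hu1, hu2⟩ := exists_u a' v
    obtain ⟨g, hg, hg0, hg1⟩ := exists_w_swap hK hrN a' (u.val : ℤ) (v.val : ℤ) hu2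
    refine ⟨g, ((), u), (r2.eq_iff r1 g _ _).mpr (by rw [haa]; exact hg), ?_⟩
    change ψ v * wt χ₀' a'.w * kap χ g = wt χ₀ a.w * ψ u
    rw [kap_eq_one_of hK h hg0 hg1, mul_one, hu1]
    exact wt_w_eq ht₀ a a' haa hrN u
  · rw [Fintype.card_prod, Fintype.card_prod, mul_comm]

include hrN ht₀ haa in
/-- **The twist commutes with the trace.** -/
theorem tw1_Trop (hq : q.Prime) (hqN : ¬ q ∣ N) (hqN' : ¬ q ∣ N * r) (hrK : r ∣ K)
    (x : H1 (kap χ) A) :
    Trop (level_mul hK) a' A h' hq hqN' (tw1 A hrK ht x) =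
      tw1 A hrN ht₀ (Trop hK a A h hq hqN x) := by
  classical
  have hne : q ≠ r := fun he => hqN (he ▸ hrN)
  have e1 : tw1 A hrN ht₀ (Trop hK a A h hq hqN x) =
      opBH A ((isWB_tr hK a h hq hqN).comp (isWB_tw hrN ht₀)) x := by
    rw [opBH_comp (isWB_tr hK a h hq hqN) (isWB_tw hrN ht₀)]
    rfl
  have e2 : Trop (level_mul hK) a' A h' hq hqN' (tw1 A hrK ht x) =
      opBH A ((isWB_tw hrK ht).comp (isWB_tr (level_mul hK) a' h' hq hqN')) x := by
    rw [opBH_comp (isWB_tw hrK ht) (isWB_tr (level_mul hK) a' h' hq hqN')]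
    rfl
  have r1 := (intRep_sys (repSys_tr' hK a hq hqN)).comp (intRep_tw hrN)
  have r2 := (intRep_tw hrK).comp (intRep_sys (repSys_tr' (level_mul hK) a' hq hqN'))
  rw [e1, e2]
  refine opBH_congr' _ _ ?_ ?_ ?_ x
  · rintro g ⟨u, i⟩ ⟨v, j⟩ hij
    obtain ⟨h1, h2⟩ := TM_tr_uniq hK a' hq hne g u v i j
      (((r2.eq_iff r2 g _ _).mp hij.symm)).symm
    rw [h1, h2]
  · rintro ⟨v, i⟩
    cases i with
    | none =>
      obtain ⟨u, hu1, hu2⟩ := exists_u a' v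
      obtain ⟨g, hg, hg0, hg1⟩ := exists_w_swap hK hrN a' (u.val : ℤ) (v.val : ℤ) hu2
      refine ⟨g, (none, u), (r2.eq_iff r1 g _ _).mpr ?_, ?_⟩
      · change TM r (v.val : ℤ) * a'.w = mt g * (a.w * TM r (u.val : ℤ))
        rw [haa]
        exact hg
      · change ψ v * wt χ₀' a'.w * kap χ g = wt χ₀ a.w * ψ u
        rw [kap_eq_one_of hK h hg0 hg1, mul_one, hu1]
        exact wt_w_eq ht₀ a a' haa hrN u
    | some j =>
      obtain ⟨t, j', ht'⟩ := exists_swap_some' hq j v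
      refine ⟨shiftG K t, (some j', v * (q : ZMod r)), (r2.eq_iff r1 _ _ _).mpr ht', ?_⟩
      change ψ v * wt χ₀' (HM q (some j)) * kap χ (shiftG K t) =
        wt χ₀ (HM q (some j')) * ψ (v * (q : ZMod r))
      have hc : IsCoprime (q : ℤ) (N : ℤ) :=
        Nat.isCoprime_iff_coprime.mpr ((Nat.Prime.coprime_iff_not_dvd hq).mpr hqN)
      have hc1 := (isCoprime_mul_r hrN hc).1
      have h3 := char_mul_inv ψ (isUnit_intCast hc1)
      have h4 := twRel_inv ht₀ hrN _ hc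
      rw [kap_shiftG, wt, wt, HM_some, HM_some]
      simp only [Matrix.of_apply, Matrix.cons_val', Matrix.cons_val_zero, Matrix.cons_val_one,
        Matrix.cons_val_fin_one, Int.cast_one, map_one, one_mul, mul_one]
      rw [h4, map_mul]
      simp only [Int.cast_natCast] at h3 ⊢
      linear_combination (-ψ v * χ₀'⁻¹ (q : ZMod (N * r))) * h3
  · rw [Fintype.card_prod, Fintype.card_prod, mul_comm]

end Comm

end Fermat.Agent.TWLow
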