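import Fermat.Agent.TWLow.Sys

set_option autoImplicit false
set_option linter.unusedSectionVars false

/-!
# The Atkin–Lehner operator and the trace on twisted cohomology
-/

open CongruenceSubgroup Fermat.Agent.Top Fermat.Agent.TWMod Fermat.Agent.Twist
  Fermat.Agent.Ihara Matrix.SpecialLinearGroup
open scoped MatrixGroups

namespace Fermat.Agent.TWLow

section Mats

variable {N q K : ℕ} (hK : K = q * N) (a : ALD N q)

include hK in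
theorem repSys_w' (hq : q ≠ 0) : RepSys K K (fun _ : Unit => a.w) := by
  subst hK
  exact a.repSys_w hq

include hK in
theorem repSys_tr' (hq : q.Prime) (hqN : ¬ q ∣ N) : RepSys K N a.trM := by
  subst hK
  exact a.repSys_trM hq hqN

theorem dvd_w : (N : ℤ) ∣ a.w 1 0 := ⟨q * a.z, by simp [ALD.w]; ring⟩

theorem dvd_trM (i : Option (Fin q)) : (N : ℤ) ∣ a.trM i 1 0 := by
  cases i with
  | none => exact dvd_w a
  | some j => simp

include hK in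
theorem w_uniq (hq : q ≠ 0) {ℓ : ℕ} (hℓ : ℓ.Prime) (g : Gamma0 K) (i j : HI K ℓ)
    (h : mt g * (tM K ℓ i * a.w) = tM K ℓ j * a.w) : i = j := by
  have hdw : a.w.det ≠ 0 := by rw [a.det_w]; exact_mod_cast hq
  have h1 : mt g * tM K ℓ i = tM K ℓ j :=
    mul_right_cancel_det hdw (by rw [Matrix.mul_assoc]; exact h)
  exact (repSys_tM K hℓ).uniq g i j h1

include hK in
theorem w_exists (hq : q ≠ 0) {ℓ : ℕ} (hℓ : ℓ.Prime) (hℓK : ¬ ℓ ∣ K) (i : HI K ℓ) :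
    ∃ (g : Gamma0 K) (j : HI K ℓ), tM K ℓ i * a.w = mt g * (a.w * tM K ℓ j) := by
  subst hK
  have hcop : IsCoprime (ℓ : ℤ) ((q * N : ℕ) : ℤ) :=
    Nat.isCoprime_iff_coprime.mpr ((Nat.Prime.coprime_iff_not_dvd hℓ).mpr hℓK)
  obtain ⟨X', h1, h2, h3⟩ := a.conj' hq (X := tM (q * N) ℓ i) (isDelta_HM hℓ i).1
    (by rw [det_tM]; exact hcop)
  rw [det_tM] at h2
  obtain ⟨γ, j, hγ⟩ := exists_tM hℓ h1 h2
  obtain ⟨γ', hγ'⟩ := a.conj_mt hq γ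
  refine ⟨γ', j, ?_⟩
  rw [h3, hγ, ← Matrix.mul_assoc, hγ', Matrix.mul_assoc]

include hK in
theorem tr_uniq (hq : q.Prime) {ℓ : ℕ} (hℓ : ℓ.Prime) (g : Gamma0 K)
    (i i' : Option (Fin q)) (j j' : HI N ℓ)
    (h : mt g * (a.trM i * tM N ℓ j) = a.trM i' * tM N ℓ j') : i = i' ∧ j = j' := by
  subst hK
  have hqp : Prime (q : ℤ) := Nat.prime_iff_prime_int.mp hq
  have hdq : (ALD.dg q).det ≠ 0 := by rw [ALD.det_dg]; exact hqp.ne_zero
  obtain ⟨γ'', hγ''⟩ := ALD.conj_dg g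
  obtain ⟨β, hβ⟩ := exists_mt (a.isDelta_bM i) (a.det_bM i)
  obtain ⟨β', hβ'⟩ := exists_mt (a.isDelta_bM i') (a.det_bM i')
  rw [a.trM_eq, a.trM_eq, ← Matrix.mul_assoc, ← Matrix.mul_assoc, hγ'', Matrix.mul_assoc,
    Matrix.mul_assoc, Matrix.mul_assoc] at h
  have h1 := mul_left_cancel_det hdq h
  rw [hβ, hβ'] at h1
  have h2 : mt (β'⁻¹ * (γ'' * β)) * tM N ℓ j = tM N ℓ j' := by
    rw [mt_mul, mt_mul, Matrix.mul_assoc, Matrix.mul_assoc, h1, ← Matrix.mul_assoc, mt_inv_mul,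
      Matrix.one_mul]
  have hj := (repSys_tM N hℓ).uniq _ _ _ h2
  subst hj
  have h3 : mt γ'' * mt β = mt β' := by
    refine mul_right_cancel_det (Z := tM N ℓ j) ((repSys_tM N hℓ).det j) ?_
    rw [Matrix.mul_assoc]; exact h1
  have h4 : mt g * a.trM i = a.trM i' := by
    rw [a.trM_eq, a.trM_eq, ← Matrix.mul_assoc, hγ'', Matrix.mul_assoc, hβ, hβ', h3]
  exact ⟨a.trM_uniq hq g i i' h4, rfl⟩

include hK in
theorem tr_exists (hq : q.Prime) (hqN : ¬ q ∣ N) {ℓ : ℕ} (hℓ : ℓ.Prime) (hℓK : ¬ ℓ ∣ K)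
    (i : Option (Fin q)) (j : HI N ℓ) : ∃ (g : Gamma0 K) (j' : HI K ℓ) (i' : Option (Fin q)),
      a.trM i * tM N ℓ j = mt g * (tM K ℓ j' * a.trM i') := by
  subst hK
  have hqp : Prime (q : ℤ) := Nat.prime_iff_prime_int.mp hq
  have hℓq : ¬ (ℓ : ℕ) ∣ q := fun h => hℓK (h.mul_right N)
  obtain ⟨X, i', hX, h⟩ := a.exists_trM hq hqN (B := a.bM i * tM N ℓ j)
    ((a.isDelta_bM i).mul (isDelta_HM hℓ j))
    (by
      rw [Matrix.det_mul, a.det_bM, det_tM, one_mul]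
      intro h
      have h1 : q ∣ (ℓ : ℕ) := by exact_mod_cast h
      rw [(Nat.prime_dvd_prime_iff_eq hq hℓ).mp h1] at hℓq
      exact hℓq dvd_rfl)
  rw [← Matrix.mul_assoc, ← a.trM_eq] at h
  have hdet : X.det = (ℓ : ℕ) := by
    have h1 := congrArg Matrix.det h
    rw [Matrix.det_mul, Matrix.det_mul, a.det_trM, a.det_trM, det_tM, mul_comm] at h1
    exact (mul_right_cancel₀ hqp.ne_zero h1).symm
  obtain ⟨γ, j', hγ⟩ := exists_tM hℓ hX hdet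
  refine ⟨γ, j', i', ?_⟩
  rw [h, hγ, Matrix.mul_assoc]

end Mats

theorem dvd_tM {n : ℕ} (K ℓ : ℕ) (i : HI K ℓ) : (n : ℤ) ∣ tM K ℓ i 1 0 := dvd_HM ℓ i.1

section Ops

variable {N q K : ℕ} (hK : K = q * N) (a : ALD N q) {Λ : Type*} [CommRing Λ]
variable (A : Type*) [AddCommGroup A] [Module Λ A]
variable {χ : DirichletCharacter Λ K} {χ₀ : DirichletCharacter Λ N} (h : CR χ χ₀)

include hK in
theorem dvd_level : N ∣ K := ⟨q, by rw [hK, mul_comm]⟩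

include h in
theorem isWB_w (hq : q ≠ 0) : IsWB (sys (repSys_w' hK a hq)) (kap χ) (kap χ)
    (fun _ => wt χ₀ a.w) :=
  KW.isWB (intRep_sys (repSys_w' hK a hq)) (dvd_level hK) (dvd_level hK) (fun _ => dvd_w a)
    (h.kw (dvd_level hK)) (h.kw (dvd_level hK))

include h in
theorem isWB_tr (hq : q.Prime) (hqN : ¬ q ∣ N) : IsWB (sys (repSys_tr' hK a hq hqN)) (kap χ)
    (kap χ₀) (fun i => wt χ₀ (a.trM i)) :=
  KW.isWB (intRep_sys (repSys_tr' hK a hq hqN)) (dvd_level hK) dvd_rfl (fun i => dvd_trM a i)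
    (h.kw (dvd_level hK)) (kw_kap χ₀)

/-- The Atkin–Lehner operator. -/
noncomputable def Wop (hq : q ≠ 0) : H1 (kap χ) A →ₗ[Λ] H1 (kap χ) A := opBH A (isWB_w hK a h hq)

/-- The trace. -/
noncomputable def Trop (hq : q.Prime) (hqN : ¬ q ∣ N) : H1 (kap χ) A →ₗ[Λ] H1 (kap χ₀) A :=
  opBH A (isWB_tr hK a h hq hqN)

theorem Wop_hk (hq : q ≠ 0) {ℓ : ℕ} (hℓ : ℓ.Prime) (hℓK : ¬ ℓ ∣ K) (x : H1 (kap χ) A) :
    Wop hK a A h hq (hk χ A hℓ x) = hk χ A hℓ (Wop hK a A h hq x) := by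
  classical
  have e1 : Wop hK a A h hq (hk χ A hℓ x) =
      opBH A ((IsWB.ofReps (isWeight_hw χ hℓ)).comp (isWB_w hK a h hq)) x := by
    rw [opBH_comp (IsWB.ofReps (isWeight_hw χ hℓ)) (isWB_w hK a h hq), opBH_ofReps]
    rfl
  have e2 : hk χ A hℓ (Wop hK a A h hq x) =
      opBH A ((isWB_w hK a h hq).comp (IsWB.ofReps (isWeight_hw χ hℓ))) x := by
    rw [opBH_comp (isWB_w hK a h hq) (IsWB.ofReps (isWeight_hw χ hℓ)), opBH_ofReps]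
    rfl
  have r1 := (intRep_hreps K hℓ).comp (intRep_sys (repSys_w' hK a hq))
  have r2 := (intRep_sys (repSys_w' hK a hq)).comp (intRep_hreps K hℓ)
  rw [e1, e2]
  refine opBH_congr' _ _ ?_ ?_ ?_ x
  · rintro g ⟨i, _⟩ ⟨j, _⟩ hij
    rw [w_uniq hK a hq hℓ g i j (((r1.eq_iff r1 g _ _).mp hij.symm)).symm]
  · rintro ⟨i, _⟩
    obtain ⟨g, j, hgj⟩ := w_exists hK a hq hℓ hℓK i
    refine ⟨g, ((), j), (r1.eq_iff r2 g _ _).mpr hgj, ?_⟩
    change hw χ ℓ i * wt χ₀ a.w * kap χ g = wt χ₀ a.w * hw χ ℓ j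
    rw [hw_eq h (dvd_level hK) hℓ hℓK, hw_eq h (dvd_level hK) hℓ hℓK,
      ← wt_mul χ₀ (dvd_tM K ℓ _) (dvd_w a), ← wt_mul χ₀ (dvd_w a) (dvd_tM K ℓ _)]
    refine (h.kw (dvd_level hK)).weight (dvd_level hK) g ?_ hgj
    simp only [Matrix.mul_apply, Fin.sum_univ_two]
    exact dvd_add ((dvd_w a).mul_right _) ((dvd_tM K ℓ _).mul_left _)
  · rw [Fintype.card_prod, Fintype.card_prod, mul_comm]

theorem Trop_hk (hq : q.Prime) (hqN : ¬ q ∣ N) {ℓ : ℕ} (hℓ : ℓ.Prime) (hℓK : ¬ ℓ ∣ K)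
    (x : H1 (kap χ) A) :
    Trop hK a A h hq hqN (hk χ A hℓ x) = hk χ₀ A hℓ (Trop hK a A h hq hqN x) := by
  classical
  have hℓN : ¬ ℓ ∣ N := fun hd => hℓK (hd.trans (dvd_level hK))
  have hcr : CR χ₀ χ₀ := fun _ _ => rfl
  have e1 : Trop hK a A h hq hqN (hk χ A hℓ x) =
      opBH A ((IsWB.ofReps (isWeight_hw χ hℓ)).comp (isWB_tr hK a h hq hqN)) x := by
    rw [opBH_comp (IsWB.ofReps (isWeight_hw χ hℓ)) (isWB_tr hK a h hq hqN), opBH_ofReps]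
    rfl
  have e2 : hk χ₀ A hℓ (Trop hK a A h hq hqN x) =
      opBH A ((isWB_tr hK a h hq hqN).comp (IsWB.ofReps (isWeight_hw χ₀ hℓ))) x := by
    rw [opBH_comp (isWB_tr hK a h hq hqN) (IsWB.ofReps (isWeight_hw χ₀ hℓ)), opBH_ofReps]
    rfl
  have r1 := (intRep_hreps K hℓ).comp (intRep_sys (repSys_tr' hK a hq hqN))
  have r2 := (intRep_sys (repSys_tr' hK a hq hqN)).comp (intRep_hreps N hℓ)
  rw [e1, e2]
  symm
  refine opBH_congr' _ _ ?_ ?_ ?_ x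
  · rintro g ⟨i, j⟩ ⟨i', j'⟩ hij
    obtain ⟨h1, h2⟩ := tr_uniq hK a hq hℓ g i i' j j' (((r2.eq_iff r2 g _ _).mp hij.symm)).symm
    rw [h1, h2]
  · rintro ⟨i, j⟩
    obtain ⟨g, j', i', hgj⟩ := tr_exists hK a hq hqN hℓ hℓK i j
    refine ⟨g, (j', i'), (r2.eq_iff r1 g _ _).mpr hgj, ?_⟩
    change wt χ₀ (a.trM i) * hw χ₀ ℓ j * kap χ g = hw χ ℓ j' * wt χ₀ (a.trM i')
    rw [hw_eq h (dvd_level hK) hℓ hℓK, hw_eq hcr dvd_rfl hℓ hℓN,
      ← wt_mul χ₀ (dvd_tM K ℓ _) (dvd_trM a _), ← wt_mul χ₀ (dvd_trM a _) (dvd_tM N ℓ _)]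
    refine (h.kw (dvd_level hK)).weight (dvd_level hK) g ?_ hgj
    simp only [Matrix.mul_apply, Fin.sum_univ_two]
    exact dvd_add ((dvd_tM K ℓ _).mul_right _) ((dvd_trM a _).mul_left _)
  · rw [Fintype.card_prod, Fintype.card_prod, card_HI, card_HI, if_neg hℓN, if_neg hℓK, mul_comm]

end Ops

end Fermat.Agent.TWLow
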